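import Fermat.Agent.Lifting.UnitRootEigen
import Fermat.Agent.OrdinaryCurve.Main

/-!
# A Tate vector on which inertia at `p` is cyclotomic

For a character of the Hecke algebra of level `N`, `p ∣ N`, with values in a complete discrete
valuation ring in which `U_p` goes to a unit, there is a nonzero intertwining map to `T_p J₀(N)` on
which the inertia group of a place over `p` acts through the cyclotomic character.
-/

set_option autoImplicit false

noncomputable section

open IsLocalRing ModularCurve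
open Fermat.Agent.CarayolReduction (tateModule)

namespace Fermat.Agent.OrdinaryVectors

local notation "Qbar" => AlgebraicClosure ℚ

/-- **Unit twist.** -/
theorem exists_tateVector {p N : ℕ} [NeZero N] [Fact p.Prime] (hpN : p ∣ N) {B : Type}
    [CommRing B] [IsDomain B] [IsDiscreteValuationRing B] [IsAdicComplete (maximalIdeal B) B]
    [Finite (ResidueField B)] [CharZero B] (hpB : (p : B) ∈ maximalIdeal B)
    (χ : CuspForm.heckeAlgebra N 2 (∅ : Set ℕ) →+* B)
    (hu : IsUnit (χ (CuspForm.heckeAlgebra.U (Fact.out : p.Prime) hpN (Set.notMem_empty p)))) :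
    ∃ f : B →+ tateModule (JZero N) p, f ≠ 0 ∧
      (∀ (l : ℕ) (hl : l.Prime) (hlN : ¬ l ∣ N) (b : B) (n : ℕ),
        (f (χ (CuspForm.heckeAlgebra.T hl hlN (Set.notMem_empty l)) * b)).1 n =
          heckeOperatorBar N (⟨l, hl⟩ : Nat.Primes) ((f b).1 n)) ∧
      ∀ σ ∈ (padicPlace p).inertiaSubgroupIn ℚ, ∀ (b : B) (n k : ℕ),
        (∀ μ : Qbar, μ ^ p ^ n = 1 → σ μ = μ ^ k) → σ • (f b).1 n = k • (f b).1 n := by
  classical
  have hp : p.Prime := Fact.out
  let := (RepTheory.padicHom p B hpB).toAlgebra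
  have := TateExport.moduleFinite_padic B hpB
  have hinj : Function.Injective (algebraMap ℤ_[p] B) := by
    rw [injective_iff_map_eq_zero]
    intro r hr
    by_contra hr0
    obtain ⟨n, u, rfl⟩ := IsDiscreteValuationRing.eq_unit_mul_pow_irreducible hr0
      PadicInt.irreducible_p
    rw [map_mul, map_pow, map_natCast, mul_eq_zero] at hr
    exact hr.elim ((u.isUnit.map (algebraMap ℤ_[p] B)).ne_zero)
      (pow_ne_zero _ (Nat.cast_ne_zero.mpr hp.ne_zero))
  have : NoZeroSMulDivisors ℤ_[p] B := ⟨fun {r y} h => by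
    rwa [Algebra.smul_def, mul_eq_zero, map_eq_zero_iff _ hinj] at h⟩
  have : Module.Free ℤ_[p] B := Module.free_of_finite_type_torsion_free'
  let a : Nat.Primes → B := fun l => if h : ¬ (l : ℕ) ∣ N then
    χ (CuspForm.heckeAlgebra.T l.2 h (Set.notMem_empty _)) else 0
  obtain ⟨Q⟩ := OrdinaryExclusion.nonempty_qBasis N
  obtain ⟨U, -, hU⟩ := OrdinaryExclusion.exists_isUMat Q hp hpN
  obtain ⟨w, hw, hwT, hwU⟩ := Lifting.exists_eigenVector Q χ
  obtain ⟨β, hβ⟩ := hu.exists_left_inv
  have hlN' : ∀ {l : Nat.Primes}, (l : ℕ) ∉ N.primeFactors → ¬ (l : ℕ) ∣ N := fun {l} h hd =>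
    h (Nat.mem_primeFactors.mpr ⟨l.2, hd, NeZero.ne N⟩)
  obtain ⟨H, hH, hT, -, hI⟩ := Lifting.exists_tateHom (OrdinaryCurve.ordinaryTate p N) Q U hU hpB
    hu hβ a w hw (hwU p hp hpN U hU) N.primeFactors (fun l hl => by
      obtain ⟨T, -, hT⟩ := OrdinaryExclusion.exists_isTMat Q l.2 (hlN' hl)
      refine ⟨hlN' hl, T, hT, (hwT l l.2 (hlN' hl) T hT).trans ?_⟩
      simp only [a, dif_pos (hlN' hl)])
  obtain ⟨ψ, hψ⟩ : ∃ ψ : B →ₗ[ℤ_[p]] ℤ_[p], H ψ ≠ 0 := by
    by_contra hall
    push Not at hall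
    exact one_ne_zero (hH 1 fun ψ => hall _)
  refine ⟨AddMonoidHom.mk' (fun b => H (ψ ∘ₗ LinearMap.mulLeft ℤ_[p] b)) (fun b b' => ?_),
    fun h0 => ?_, fun l hl hlN b n => ?_, fun σ hσ b n k hk => ?_⟩
  · rw [← map_add]
    exact congrArg H (LinearMap.ext fun y => by simp [add_mul])
  · refine hψ ?_
    have h := DFunLike.congr_fun h0 1
    rw [AddMonoidHom.mk'_apply, AddMonoidHom.zero_apply] at h
    rwa [LinearMap.mulLeft_one, LinearMap.comp_id] at h
  · have h := hT ⟨l, hl⟩ (fun hm => hlN (Nat.mem_primeFactors.mp hm).2.1)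
      (ψ ∘ₗ LinearMap.mulLeft ℤ_[p] b) n
    refine Eq.trans (congrArg (fun u => (H u).1 n) (LinearMap.ext fun y => ?_)) h.symm
    simp only [a, dif_pos hlN, LinearMap.comp_apply, LinearMap.mulLeft_apply]
    congr 1
    ring
  · obtain ⟨g, rfl⟩ : ∃ g, localGaloisToGlobal p g = σ := by
      have h : σ ∈ (localGaloisToGlobal p).range := by
        rw [PoitouTate.range_localGaloisToGlobal]
        exact LocalInertia.inertiaSubgroupIn_le_decompositionSubgroup hσ
      exact h
    exact hI g (OrdinaryCurve.unramGal_eq_id_of_inertia p hσ) n k hk _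

end Fermat.Agent.OrdinaryVectors
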