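import Fermat.Agent.OrdinaryVectors.Embedding
import Fermat.Agent.OrdinaryVectors.UnitTwist
import Fermat.Agent.OrdinaryGlue.Main
import Fermat.Agent.Supersingular.Instance
import Fermat.Agent.OrdKummer.Main
import Fermat.Agent.RepTheory.Descent
import Fermat.Agent.Newforms.Main
import Fermat.Agent.Lifting.TraceGen
import Fermat.Agent.ConductorLevel.Compare

/-!
# Ordinary vectors at a level exactly divisible by `p`

Either `U_p` has eigenvalue `± 1`, or the eigen system comes from the level prime to `p`, where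
residual ordinarity makes `a_p` a unit; in both cases some character of the full Hecke algebra with
the given good eigenvalues has `U_p` a unit, hence an ordinary vector.
-/

set_option autoImplicit false

noncomputable section

open CongruenceSubgroup ModularCurve ModularFormClass Polynomial IsLocalRing

namespace Fermat.Agent.OrdinaryVectors

open CarayolReduction
open HeckeEigen (eigenChar qCoeff_mem_range_eigenChar)
open Fermat.Agent.Deformation (GQ)

variable {p : ℕ} [Fact p.Prime] {N : ℕ} [NeZero N]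

/-- A monic quadratic with unit linear and nonunit constant coefficient has a unit root. -/
theorem exists_unit_root {B : Type} [CommRing B] [IsLocalRing B]
    [IsAdicComplete (maximalIdeal B) B] {a c : B} (ha : IsUnit a) (hc : c ∈ maximalIdeal B) :
    ∃ α : B, IsUnit α ∧ α ^ 2 - a * α + c = 0 := by
  have := RepTheory.henselianLocalRing_of_isAdicComplete B
  obtain ⟨α, hα, hsub⟩ := HenselianLocalRing.is_henselian (X ^ 2 - C a * X + C c)
    (by monicity!) a (by simpa [sq] using hc) (by
      have : Polynomial.eval a (derivative (X ^ 2 - C a * X + C c)) = a := by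
        simp [derivative_pow]; ring
      rwa [this])
  refine ⟨α, ?_, by simpa [IsRoot.def] using hα⟩
  by_contra hu
  have h1 : a ∈ maximalIdeal B := by
    have := sub_mem ((IsLocalRing.mem_maximalIdeal α).mpr hu) hsub
    rwa [sub_sub_cancel] at this
  exact (IsLocalRing.mem_maximalIdeal a).mp h1 ha

/-- **A character with unit `U_p` and the given good eigenvalues.** -/
theorem exists_unit_char (hp2 : p ≠ 2) (hpN : p ∣ N) (hpN2 : ¬ p ^ 2 ∣ N)
    {g : CuspForm (Gamma0 N) 2} (hg : g.IsNormalizedEigenform)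
    (A : Type) [CommRing A] [IsDomain A] [IsDiscreteValuationRing A]
    [IsAdicComplete (maximalIdeal A) A] [Finite (ResidueField A)] [CharZero A]
    (hpA : (p : A) ∈ maximalIdeal A) (c : (eigenChar hg (badSet N)).range →+* A)
    (S : Finset ℕ) (hNS : ∀ q : ℕ, q.Prime → q ∣ N → q ∈ S) (ρ : GaloisRepAdic A)
    (hfrob : ∀ (ℓ : ℕ) (hℓ : ℓ.Prime) (hℓN : ¬ ℓ ∣ N), ℓ ∉ S →
      ∀ P : ValuationSubring (AlgebraicClosure ℚ), P.LiesOverPrime ℓ →
        ∀ φ : GQ, P.IsFrobeniusAt φ ℓ →
          LinearMap.charpoly (ρ.ρ φ) = X ^ 2 - C (c ((eigenChar hg (badSet N)).rangeRestrict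
            (CuspForm.heckeAlgebra.T hℓ hℓN (not_mem_badSet hℓN)))) * X + C (ℓ : A))
    (hord : (GaloisRepAdic.ofResidualGaloisRep ρ.residual).IsOrdinaryAt p)
    (hdet : ρ.DetIsCyclotomic p) :
    ∃ (B : Type) (_ : CommRing B) (_ : IsDomain B) (_ : IsDiscreteValuationRing B)
      (_ : IsAdicComplete (maximalIdeal B) B) (_ : Finite (ResidueField B)) (_ : CharZero B)
      (_ : Algebra A B) (_ : IsLocalHom (algebraMap A B)),
      Function.Injective (algebraMap A B) ∧
      ∃ χ : CuspForm.heckeAlgebra N 2 (∅ : Set ℕ) →+* B,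
        IsUnit (χ (CuspForm.heckeAlgebra.U (Fact.out : p.Prime) hpN (Set.notMem_empty p))) ∧
        ∀ (l : ℕ) (hl : l.Prime) (hlN : ¬ l ∣ N),
          χ (CuspForm.heckeAlgebra.T hl hlN (Set.notMem_empty l)) =
            algebraMap A B (c ((eigenChar hg (badSet N)).rangeRestrict
              (CuspForm.heckeAlgebra.T hl hlN (not_mem_badSet hlN)))) := by
  have hp : p.Prime := Fact.out
  obtain ⟨M, rfl⟩ := hpN
  have : NeZero M := ⟨fun h => NeZero.ne (p * M) (by rw [h, mul_zero])⟩
  have hpM : ¬ p ∣ M := fun h => hpN2 (by rw [sq]; exact mul_dvd_mul_left p h)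
  rcases Newforms.qCoeff_sq_eq_one_or_occursAt hp hpM g hg with hsq | ⟨f, hf, hfg⟩
  · obtain ⟨B, i1, i2, i3, i4, i5, i6, i7, i8, hinj, ι, hι⟩ :=
      exists_embedding dvd_rfl hg hg (fun _ _ _ => rfl) A c
    let χ := ι.comp (eigenChar hg (∅ : Set ℕ)).rangeRestrict
    refine ⟨B, i1, i2, i3, i4, i5, i6, i7, i8, hinj, χ, ?_, fun l hl hlN => ?_⟩
    · have hU : (eigenChar hg (∅ : Set ℕ)).rangeRestrict
          (CuspForm.heckeAlgebra.U hp (dvd_mul_right p M) (Set.notMem_empty p)) =
          ⟨qCoeff g p, qCoeff_mem_range_eigenChar hg p⟩ :=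
        Subtype.ext (HeckeEigen.eigenChar_U hg hp _ _)
      refine IsUnit.of_mul_eq_one _ (show _ * χ (CuspForm.heckeAlgebra.U hp (dvd_mul_right p M)
        (Set.notMem_empty p)) = 1 from ?_)
      rw [RingHom.comp_apply, hU, ← map_mul, ← sq, ← map_one ι]
      exact congrArg ι (Subtype.ext (by simpa using hsq))
    · rw [← hι l hl hlN]
      exact congrArg ι (Subtype.ext (HeckeEigen.eigenChar_T hg hl hlN _))
  · obtain ⟨B, i1, i2, i3, i4, i5, i6, i7, i8, hinj, ι, hι⟩ :=
      exists_embedding (dvd_mul_left M p) hg hf hfg A c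
    have hpB : (p : B) ∈ maximalIdeal B := by
      rw [← map_natCast (algebraMap A B)]
      exact map_nonunit (algebraMap A B) _ hpA
    let ρB := ρ.baseChangeAlong (algebraMap A B) i8
    have hdetB : ρB.DetIsCyclotomic p := DefCond.det_map (algebraMap A B) i8 hdet
    obtain ⟨bas⟩ := DefCond.exists_basis ρB
    have hu := Supersingular.isUnit_qCoeff_of_ordinary (O := B) hp hp2 hpM hpB hf ι ρB.residual
      (OrdinaryGlue.residual_ordinary_baseChangeAlong hp2 (algebraMap A B) i8 ρ hdet hord)
      (OrdKummer.residual_detIsCyclotomic bas hdetB) S fun l hlS P hP φ hφ => by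
        have hlN : ¬ (l : ℕ) ∣ p * M := fun h => hlS (hNS l l.2 h)
        have htr : ρ.trace φ = c ((eigenChar hg (badSet (p * M))).rangeRestrict
            (CuspForm.heckeAlgebra.T l.2 hlN (not_mem_badSet hlN))) := by
          have h := hfrob l l.2 hlN hlS P hP φ hφ
          rw [ConductorLevel.charpoly_eq_of_finrank_two ρ.finrank_eq] at h
          have h1 := congrArg (fun q : A[X] => q.coeff 1) h
          simp [coeff_X_pow, coeff_C] at h1
          exact h1
        rw [Lifting.residual_trace_apply, hι l l.2 hlN, ← htr]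
        refine congrArg (residue B) ?_
        let := (algebraMap A B).toAlgebra
        exact LinearMap.trace_baseChange (ρ.ρ φ) B
    obtain ⟨α, hαu, hα⟩ := exists_unit_root hu hpB
    obtain ⟨χ, hχU, hχT⟩ := Lifting.exists_stabilised_char hf ι hp hpM hα
    exact ⟨B, i1, i2, i3, i4, i5, i6, i7, i8, hinj, χ, by rw [hχU]; exact hαu,
      fun l hl hlN => (hχT l hl hlN).trans (hι l hl hlN)⟩

/-- **The ordinary vectors.** -/
theorem ordinaryVectors (hp2 : p ≠ 2) (hpN : p ∣ N) (hpN2 : ¬ p ^ 2 ∣ N) :
    OrdinaryGlue.OrdinaryVectors N p := by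
  intro g hg A _ _ _ _ _ _ hpA c _ S hNS _ ρ hfrob _ hord hdet
  obtain ⟨B, i1, i2, i3, i4, i5, i6, i7, i8, hinj, χ, hu, hT⟩ :=
    exists_unit_char hp2 hpN hpN2 hg A hpA c S hNS ρ hfrob hord hdet
  have hpB : (p : B) ∈ maximalIdeal B := by
    rw [← map_natCast (algebraMap A B)]
    exact map_nonunit (algebraMap A B) _ hpA
  obtain ⟨f, hf, hfT, hfI⟩ := exists_tateVector hpN hpB χ hu
  exact ⟨B, i1, i2, i3, i4, i5, i6, i7, i8, hinj, padicPlace p,
    PoitouTate.padicPlace_liesOverPrime p, f, hf,
    fun l hl hlN b n => by rw [← hT l hl hlN]; exact hfT l hl hlN b n, hfI⟩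

end Fermat.Agent.OrdinaryVectors
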