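import Fermat.Agent.CarayolReduction.Extension
import Fermat.Agent.HeckeEigen.Integral

/-!
# Coefficient embeddings along a congruence-free change of form

An embedding of the good Hecke field of an eigenform of level `N` into a complete DVR extends,
after a finite extension, to all coefficients of any eigenform of level dividing `N` with the same
good eigenvalues.
-/

set_option autoImplicit false

noncomputable section

open CongruenceSubgroup ModularFormClass IsLocalRing

namespace Fermat.Agent.OrdinaryVectors

open HeckeDatum CarayolReduction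
open HeckeEigen (eigenChar qCoeff_mem_range_eigenChar)

/-- A homomorphism from a subring extends to an integral subring above it. -/
theorem exists_extend_ringHom {R₀ R₁ : Subring ℂ} (hle : R₀ ≤ R₁) [Module.Finite ℤ R₁]
    (A : Type) [CommRing A] [IsDomain A] [IsDiscreteValuationRing A]
    [IsAdicComplete (maximalIdeal A) A] [Finite (ResidueField A)] [CharZero A]
    (iota : R₀ →+* A) :
    ∃ (B : Type) (_ : CommRing B) (_ : IsDomain B) (_ : IsDiscreteValuationRing B)
      (_ : IsAdicComplete (maximalIdeal B) B) (_ : Finite (ResidueField B)) (_ : CharZero B)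
      (_ : Algebra A B) (_ : IsLocalHom (algebraMap A B)),
      Function.Injective (algebraMap A B) ∧
      ∃ e : R₁ →+* B, ∀ (x : R₀) (y : R₁), (x : ℂ) = (y : ℂ) → e y = algebraMap A B (iota x) := by
  classical
  have : Algebra.IsIntegral ℤ R₁ := Algebra.IsIntegral.of_finite ℤ _
  have : Algebra.IsIntegral ℤ R₀ := ⟨fun x =>
    (isIntegral_algHom_iff (Subring.inclusion hle).toIntAlgHom (Subring.inclusion_injective hle)).mp
      (Algebra.IsIntegral.isIntegral (R := ℤ) (Subring.inclusion hle x))⟩
  have hiota : Function.Injective iota := injective_of_isIntegral iota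
  let K := FractionRing A
  let Ω := AlgebraicClosure K
  let : Algebra R₀ R₁ := (Subring.inclusion hle).toAlgebra
  let : Algebra R₀ Ω := ((algebraMap A Ω).comp iota).toAlgebra
  have hAΩ : Function.Injective (algebraMap A Ω) := by
    rw [IsScalarTower.algebraMap_eq A K Ω]
    exact (algebraMap K Ω).injective.comp (IsFractionRing.injective A K)
  have : FaithfulSMul R₀ R₁ :=
    (faithfulSMul_iff_algebraMap_injective _ _).mpr (Subring.inclusion_injective hle)
  have : FaithfulSMul R₀ Ω :=
    (faithfulSMul_iff_algebraMap_injective _ _).mpr (hAΩ.comp hiota)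
  have : Algebra.IsAlgebraic R₀ R₁ := ⟨fun x =>
    ((Algebra.IsIntegral.isIntegral (R := ℤ) x).tower_top).isAlgebraic⟩
  let e : R₁ →ₐ[R₀] Ω := IsAlgClosed.lift
  obtain ⟨s, hs⟩ := Module.Finite.fg_top (R := ℤ) (M := R₁)
  let L : IntermediateField K Ω := IntermediateField.adjoin K (e '' (s : Set R₁))
  have hfin : FiniteDimensional K L := by
    have : Finite (e '' (s : Set R₁)) := (s.finite_toSet.image e).to_subtype
    exact IntermediateField.finiteDimensional_adjoin fun x _ => Algebra.IsIntegral.isIntegral x
  have hmem : ∀ x : R₁, e x ∈ L := by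
    intro x
    have hx : x ∈ Submodule.span ℤ (s : Set R₁) := by rw [hs]; exact Submodule.mem_top
    induction hx using Submodule.span_induction with
    | mem y hy => exact IntermediateField.subset_adjoin K _ ⟨y, hy, rfl⟩
    | zero => rw [map_zero]; exact zero_mem L
    | add y z _ _ hy hz => rw [map_add]; exact add_mem hy hz
    | smul a y _ hy => rw [map_zsmul]; exact zsmul_mem hy a
  have : CharZero K := charZero_of_injective_algebraMap (IsFractionRing.injective A K)
  have : Algebra.IsSeparable K L := Algebra.IsAlgebraic.isSeparable_of_perfectField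
  obtain ⟨hdvr, hcompl, -, hloc, hinj, -, hres⟩ :=
    HeckeAlg.exists_completeDVR_integralClosure A K L
  let eL : R₁ →+* L := e.toRingHom.codRestrict L hmem
  have hint : ∀ x : R₁, eL x ∈ integralClosure A L := fun x =>
    ((Algebra.IsIntegral.isIntegral (R := ℤ) x).map eL.toIntAlgHom).tower_top
  refine ⟨integralClosure A L, inferInstance, inferInstance, hdvr, hcompl, hres inferInstance,
    charZero_of_injective_algebraMap hinj, inferInstance, hloc, hinj,
    eL.codRestrict (integralClosure A L) hint, fun x y hxy => ?_⟩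
  have hy : y = algebraMap R₀ R₁ x := Subtype.ext hxy.symm
  refine Subtype.ext (Subtype.ext ?_)
  show e y = _
  rw [hy, e.commutes]
  rfl

variable {N M : ℕ} [NeZero N] [NeZero M]

/-- **The extension to the coefficients of a form with the same good eigenvalues.** -/
theorem exists_embedding (hMN : M ∣ N) {g : CuspForm (Gamma0 N) 2} (hg : g.IsNormalizedEigenform)
    {f : CuspForm (Gamma0 M) 2} (hf : f.IsNormalizedEigenform)
    (hfg : ∀ ℓ : ℕ, ℓ.Prime → ¬ ℓ ∣ N → qCoeff f ℓ = qCoeff g ℓ)
    (A : Type) [CommRing A] [IsDomain A] [IsDiscreteValuationRing A]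
    [IsAdicComplete (maximalIdeal A) A] [Finite (ResidueField A)] [CharZero A]
    (c : (eigenChar hg (badSet N)).range →+* A) :
    ∃ (B : Type) (_ : CommRing B) (_ : IsDomain B) (_ : IsDiscreteValuationRing B)
      (_ : IsAdicComplete (maximalIdeal B) B) (_ : Finite (ResidueField B)) (_ : CharZero B)
      (_ : Algebra A B) (_ : IsLocalHom (algebraMap A B)),
      Function.Injective (algebraMap A B) ∧
      ∃ ι : (eigenChar hf (∅ : Set ℕ)).range →+* B,
        ∀ (l : ℕ) (hl : l.Prime) (hlN : ¬ l ∣ N),
          ι ⟨qCoeff f l, qCoeff_mem_range_eigenChar hf l⟩ =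
            algebraMap A B (c ((eigenChar hg (badSet N)).rangeRestrict
              (CuspForm.heckeAlgebra.T hl hlN (not_mem_badSet hlN)))) := by
  have hMS : ∀ q : ℕ, q.Prime → q ∣ M → q ∈ badSet N := fun q hq hqM =>
    ⟨hq, hqM.trans hMN⟩
  set χf := eigenChar hf (badSet N) with hχf
  have hT : ∀ (l : ℕ) (hl : l.Prime) (hlM : ¬ l ∣ M) (hlS : l ∉ badSet N),
      χf (CuspForm.heckeAlgebra.T hl hlM hlS) = qCoeff f l := fun l hl hlM hlS =>
    HeckeEigen.eigenChar_T hf hl hlM hlS
  have hle : χf.range ≤ (eigenChar hg (badSet N)).range := by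
    rintro _ ⟨t, rfl⟩
    obtain ⟨P, rfl⟩ := evalForms_surjective hMS t
    induction P using MvPolynomial.induction_on with
    | C a =>
      rw [show (MvPolynomial.C a : AwayPoly (badSet N)) = (a : AwayPoly (badSet N)) from
        map_intCast MvPolynomial.C a, map_intCast, map_intCast]
      exact intCast_mem _ a
    | add P Q hP hQ => rw [map_add, map_add]; exact add_mem hP hQ
    | mul_X P i hP =>
      rw [map_mul, map_mul]
      refine mul_mem hP ?_
      have hiN : ¬ (i.1 : ℕ) ∣ N := fun h => i.2 ⟨i.1.2, h⟩
      rw [evalForms_X, hT, hfg _ i.1.2 hiN]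
      exact ⟨_, HeckeEigen.eigenChar_T hg i.1.2 hiN (not_mem_badSet hiN)⟩
  have hle' : χf.range ≤ (eigenChar hf (∅ : Set ℕ)).range := by
    rintro _ ⟨t, rfl⟩
    exact ⟨Subalgebra.inclusion (CuspForm.heckeAlgebra_mono (Set.empty_subset (badSet N))) t, rfl⟩
  have : Module.Finite ℤ (eigenChar hf (∅ : Set ℕ)).range := moduleFinite_range _
  obtain ⟨B, i1, i2, i3, i4, i5, i6, i7, i8, hinj, e, he⟩ :=
    exists_extend_ringHom hle' A (c.comp (Subring.inclusion hle))
  refine ⟨B, i1, i2, i3, i4, i5, i6, i7, i8, hinj, e, fun l hl hlN => ?_⟩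
  have hlM : ¬ l ∣ M := fun h => hlN (h.trans hMN)
  refine (he (χf.rangeRestrict (CuspForm.heckeAlgebra.T hl hlM (not_mem_badSet hlN)))
    ⟨qCoeff f l, qCoeff_mem_range_eigenChar hf l⟩ (hT l hl hlM (not_mem_badSet hlN))).trans
      (congrArg (algebraMap A B) (congrArg c (Subtype.ext ?_)))
  show χf _ = eigenChar hg (badSet N) _
  rw [hT, hfg l hl hlN]
  exact (HeckeEigen.eigenChar_T hg hl hlN (not_mem_badSet hlN)).symm

end Fermat.Agent.OrdinaryVectors
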